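import Fermat.Agent.S19.Pair.Core

set_option autoImplicit false

/-!
# S19 / PAIR : the Weil pairing on `J₀(N)[m]`
-/

noncomputable section

namespace Fermat.Agent.S19.Pair

open AlgebraicCurve ModularCurve
open Fermat.Agent.S24 (Kb FN IsFF1)
open Fermat.Agent.GES (GQ galF)
open Fermat.Agent.S17.WMW (aG)
open Fermat.Agent.DIV (valAt)
open Fermat.Agent.S19

variable (N : ℕ) [NeZero N]

theorem aG_oo (τ : GQ) : aG N τ • oo N = oo N := by
  apply Fermat.Agent.S24.place_ext_of_le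
  intro f hf
  rw [SemilinearAut.smul_toValuationSubring,
    ValuationSubring.mem_pointwise_smul_iff_inv_smul_mem, mem_oo] at hf
  rw [mem_oo]
  have h1 : ((aG N τ)⁻¹ • f : FN N) = galF N τ⁻¹ f := by
    rw [← map_inv]
    rfl
  rw [h1] at hf
  rcases hf with hf | hf
  · left
    exact (map_eq_zero _).1 hf
  · right
    have h2 : (galF N τ⁻¹ f).1.order = f.1.order := by
      rw [Fermat.Agent.GES.coe_galF]
      exact Fermat.Agent.S18.KPack.order_coeffMap _ _
    rw [← h2]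
    exact hf

theorem Ep_smul (τ : GQ) (y : JZero N) : Ep N (τ • y) = aG N τ • Ep N y :=
  Fermat.Agent.RL.red_smul (hFF N) (aG N τ) (aG_oo N τ) y

theorem Ed_smul (τ : GQ) (y : JZero N) : Ed N (τ • y) = aG N τ • Ed N y := by
  unfold Ed
  rw [Ep_smul, smul_sub, SemilinearAut.degree_smul, smul_comm, SemilinearAut.smul_single, aG_oo]

theorem degree_Ed (y : JZero N) : Divisor.degree (Ed N y) = 0 :=
  Fermat.Agent.RL.sub_degree_smul_mem_degZero (hFF N) (oo N) (Ep N y)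

theorem mk_Ed (y : JZero N) : Pic0.mk ⟨Ed N y, degree_Ed N y⟩ = y :=
  Fermat.Agent.RL.clsOf_red (hFF N) (oo N) y

omit [NeZero N] in
theorem exists_isDiv_of_mk_eq_zero {D : Divisor.degZero (K := Kb) (F := FN N)}
    (hD : Pic0.mk D = 0) : ∃ φ : FN N, IsDiv φ (D : Divisor Kb (FN N)) := by
  unfold Pic0.mk at hD
  rw [QuotientAddGroup.eq_zero_iff, AddSubgroup.mem_addSubgroupOf] at hD
  obtain ⟨f, hf, h⟩ := hD
  exact ⟨f, hf, fun v => (h v).symm⟩

theorem exists_phi (m : ℤ) (y : TM N m) : ∃ φ : FN N, IsDiv φ (m • Ed N y.1) := by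
  have hy : m • y.1 = 0 := (Submodule.mem_torsionBy_iff _ _).1 y.2
  have h1 : Pic0.mk (m • (⟨Ed N y.1, degree_Ed N y.1⟩ : Divisor.degZero (K := Kb) (F := FN N))) = 0 := by
    have : Pic0.mk (m • (⟨Ed N y.1, degree_Ed N y.1⟩ : Divisor.degZero (K := Kb) (F := FN N))) =
        m • Pic0.mk ⟨Ed N y.1, degree_Ed N y.1⟩ := rfl
    rw [this, mk_Ed, hy]
  exact exists_isDiv_of_mk_eq_zero N h1

theorem mem_SE_of_Ed (m : ℤ) (y : TM N m) {v : Place Kb (FN N)} (hv : Ed N y.1 v ≠ 0) :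
    v ∈ SE N m := by
  by_cases h1 : v = oo N
  · exact Or.inl h1
  · right
    refine ⟨y, fun h0 => hv ?_⟩
    unfold Ed
    rw [Finsupp.sub_apply, h0, Finsupp.smul_apply, Finsupp.single_eq_of_ne h1,
      smul_zero, sub_zero]

theorem smul_mem_SE (m : ℤ) (τ : GQ) {v : Place Kb (FN N)} (hv : v ∈ SE N m) :
    aG N τ • v ∈ SE N m := by
  rcases hv with rfl | ⟨y, hy⟩
  · left
    exact aG_oo N τ
  · right
    refine ⟨τ • y, ?_⟩
    rw [coe_smul_TM, Ep_smul, SemilinearAut.divisor_smul_apply_smul]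
    exact hy

/-- disjointness of a representative from `Ed y`. -/
theorem IsRep_disj {m : ℤ} {x : JZero N} {D : Divisor.degZero (K := Kb) (F := FN N)} {f : FN N}
    (h : IsRep N m x D f) (y : TM N m) (v : Place Kb (FN N)) :
    (D : Divisor Kb (FN N)) v = 0 ∨ Ed N y.1 v = 0 := by
  by_cases h1 : Ed N y.1 v = 0
  · exact Or.inr h1
  · exact Or.inl (h.2.2 v (mem_SE_of_Ed N m y h1))

theorem IsRep_add {m : ℤ} {x x' : JZero N} {D D' : Divisor.degZero (K := Kb) (F := FN N)}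
    {f f' : FN N} (h : IsRep N m x D f) (h' : IsRep N m x' D' f') :
    IsRep N m (x + x') (D + D') (f * f') := by
  refine ⟨by rw [Pic0.mk_add, h.1, h'.1], ?_, fun v hv => ?_⟩
  · have := isDiv_mul h.2.1 h'.2.1
    rw [← smul_add] at this
    exact this
  · show ((D : Divisor Kb (FN N)) + (D' : Divisor Kb (FN N))) v = 0
    rw [Finsupp.add_apply, h.2.2 v hv, h'.2.2 v hv, add_zero]

theorem IsRep_smul {m : ℤ} {x : JZero N} {D : Divisor.degZero (K := Kb) (F := FN N)}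
    {f : FN N} (τ : GQ) (h : IsRep N m x D f) :
    IsRep N m (τ • x) (SemilinearAut.degZeroSMulHom (aG N τ) D) (aG N τ • f) := by
  refine ⟨?_, ?_, fun v hv => ?_⟩
  · rw [← SemilinearAut.pic0_smul_mk, h.1]
    rfl
  · have := isDiv_smul (aG N τ) h.2.1
    rw [smul_comm] at this
    exact this
  · rw [SemilinearAut.coe_degZeroSMulHom, SemilinearAut.divisor_smul_apply]
    apply h.2.2
    have := smul_mem_SE N m τ⁻¹ hv
    have e1 : aG N τ⁻¹ = (aG N τ)⁻¹ := map_inv _ τ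
    rwa [e1] at this

/-- the pairing. -/
theorem pair (hWR : WRStatement) (m : ℤ)
    (hrep : ∀ x : TM N m, ∃ (D : Divisor.degZero (K := Kb) (F := FN N)) (f : FN N),
      IsRep N m x.1 D f) : PairStatement N m := by
  classical
  choose D f hDf using hrep
  choose φ hφ using exists_phi N m
  have hmE : ∀ (G : Divisor Kb (FN N)) (y : TM N m), (∀ v, G v = 0 ∨ Ed N y.1 v = 0) →
      ∀ v, G v = 0 ∨ (m • Ed N y.1) v = 0 := by
    intro G y hG v
    rcases hG v with h0 | h0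
    · exact Or.inl h0
    · right; rw [Finsupp.smul_apply, h0, smul_zero]
  have hEm : ∀ (G : Divisor Kb (FN N)) (y : TM N m), (∀ v, G v = 0 ∨ Ed N y.1 v = 0) →
      ∀ v, Ed N y.1 v = 0 ∨ (m • G) v = 0 := by
    intro G y hG v
    rcases hG v with h0 | h0
    · right; rw [Finsupp.smul_apply, h0, smul_zero]
    · exact Or.inl h0
  -- units
  have uφ : ∀ (x : JZero N) (y : TM N m) (D' : Divisor.degZero (K := Kb) (F := FN N)) (f' φ' : FN N),
      IsRep N m x D' f' → IsDiv φ' (m • Ed N y.1) → UnitOn (D' : Divisor Kb (FN N)) φ' :=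
    fun x y D' f' φ' h1 h2 => isDiv_unitOn h2 (hmE _ y (IsRep_disj N h1 y))
  have uf : ∀ (x : JZero N) (y : TM N m) (D' : Divisor.degZero (K := Kb) (F := FN N)) (f' : FN N),
      IsRep N m x D' f' → UnitOn (Ed N y.1) f' :=
    fun x y D' f' h1 => isDiv_unitOn h1.2.1 (hEm _ y (IsRep_disj N h1 y))
  let e : TM N m → TM N m → Kb := fun x y =>
    evD (hFF N) (Ed N y.1) (f x) / evD (hFF N) (D x : Divisor Kb (FN N)) (φ y)
  have hW : IsWeil N m e := by
    intro x y D' f' φ' h1 h2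
    have n1 := evD_ne_zero (hFF N) (uφ _ y _ _ _ (hDf x) (hφ y))
    show evD (hFF N) (Ed N y.1) (f x) / evD (hFF N) (D x : Divisor Kb (FN N)) (φ y) * _ = _
    rw [div_mul_eq_mul_div, div_eq_iff n1]
    have h3 : Pic0.mk (D' - D x) = 0 := by
      have : Pic0.mk (D' - D x) = Pic0.mk D' - Pic0.mk (D x) := rfl
      rw [this, h1.1, (hDf x).1, sub_self]
    obtain ⟨h₀, hh⟩ := exists_isDiv_of_mk_eq_zero N h3
    exact weil_indep (hFF N) hWR (degree_Ed N y.1) D'.2 hh (hDf x).2.1 h1.2.1 (hφ y) h2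
      (IsRep_disj N (hDf x) y) (IsRep_disj N h1 y)
  refine ⟨e, hW, fun x y => ?_, fun x x' y => ?_, fun σ x y => ?_⟩
  · exact div_ne_zero (evD_ne_zero (hFF N) (uf _ y _ _ (hDf x)))
      (evD_ne_zero (hFF N) (uφ _ y _ _ _ (hDf x) (hφ y)))
  · have h1 := hW (x + x') y _ _ (φ y) (IsRep_add N (hDf x) (hDf x')) (hφ y)
    have h2 := hW x y _ _ (φ y) (hDf x) (hφ y)
    have h3 := hW x' y _ _ (φ y) (hDf x') (hφ y)
    have u1 := uφ _ y _ _ _ (hDf x) (hφ y)
    have u2 := uφ _ y _ _ _ (hDf x') (hφ y)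
    have e1 : evD (hFF N) ((D x + D x' : Divisor.degZero (K := Kb) (F := FN N)) : Divisor Kb (FN N))
        (φ y) = evD (hFF N) (D x : Divisor Kb (FN N)) (φ y) *
          evD (hFF N) (D x' : Divisor Kb (FN N)) (φ y) := evD_add (hFF N) u1 u2
    rw [e1, evD_mul (hFF N) (uf _ y _ _ (hDf x)) (uf _ y _ _ (hDf x')), ← h2, ← h3] at h1
    have n1 := evD_ne_zero (hFF N) u1
    have n2 := evD_ne_zero (hFF N) u2
    apply mul_right_cancel₀ (mul_ne_zero n1 n2)
    rw [h1]
    ring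
  · have hφ' : IsDiv (aG N σ • φ y) (m • Ed N (σ • y).1) := by
      have := isDiv_smul (aG N σ) (hφ y)
      rw [smul_comm, ← Ed_smul] at this
      exact this
    have h1 := hW (σ • x) (σ • y) _ _ _ (IsRep_smul N σ (hDf x)) hφ'
    have h2 := hW x y _ _ (φ y) (hDf x) (hφ y)
    rw [SemilinearAut.coe_degZeroSMulHom, evD_smul, coe_smul_TM, Ed_smul, evD_smul, ← h2,
      map_mul] at h1
    have n1 := evD_ne_zero (hFF N) (uφ _ y _ _ _ (hDf x) (hφ y))
    exact mul_right_cancel₀ ((map_ne_zero _).2 n1) h1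

end Fermat.Agent.S19.Pair
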