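import Fermat.Agent.S19.Pair.Ev

set_option autoImplicit false

/-!
# S19 / PAIR : the abstract Weil symbol `w(D, f; E, φ) = f(E) / φ(D)`
-/

noncomputable section

namespace Fermat.Agent.S19.Pair

open AlgebraicCurve
open Fermat.Agent.S24 (IsFF1)
open Fermat.Agent.DIV (valAt)
open Fermat.Agent.S19 (evD IsDiv WRStatement)

variable {K F : Type} [Field K] [Field F] [Algebra K F]

theorem isDiv_mul {f g : F} {D E : Divisor K F} (hf : IsDiv f D) (hg : IsDiv g E) :
    IsDiv (f * g) (D + E) :=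
  ⟨mul_ne_zero hf.1 hg.1, fun v => by
    rw [v.ord_mul hf.1 hg.1, hf.2, hg.2, Finsupp.add_apply]⟩

theorem isDiv_inv {f : F} {D : Divisor K F} (hf : IsDiv f D) : IsDiv f⁻¹ (-D) :=
  ⟨inv_ne_zero hf.1, fun v => by rw [v.ord_inv, hf.2, Finsupp.neg_apply]⟩

theorem isDiv_zpow {f : F} {D : Divisor K F} (hf : IsDiv f D) (m : ℤ) : IsDiv (f ^ m) (m • D) :=
  ⟨zpow_ne_zero m hf.1, fun v => by rw [v.ord_zpow, hf.2, Finsupp.smul_apply, smul_eq_mul]⟩

theorem isDiv_smul (g : SemilinearAut K F) {f : F} {D : Divisor K F} (hf : IsDiv f D) :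
    IsDiv (g • f) (g • D) :=
  ⟨by simpa using hf.1, fun v => by
    have h1 := SemilinearAut.ord_smul g (g⁻¹ • v) f
    rw [smul_inv_smul] at h1
    rw [h1, SemilinearAut.divisor_smul_apply, hf.2]⟩

/-- a function whose divisor is disjoint from `D` is a unit on `D`. -/
theorem isDiv_unitOn {f : F} {G D : Divisor K F} (hf : IsDiv f G) (hd : ∀ v, D v = 0 ∨ G v = 0) :
    UnitOn D f :=
  ⟨hf.1, fun v hv => by rw [hf.2]; exact (hd v).resolve_left hv⟩

variable [IsAlgClosed K] [CharZero K] (h : IsFF1 K F)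

include h in
theorem isDiv_exists_const {f f' : F} {D : Divisor K F} (hf : IsDiv f D) (hf' : IsDiv f' D) :
    ∃ c : K, c ≠ 0 ∧ f' = algebraMap K F c * f := by
  have h1 : f' / f ∈ Fermat.Agent.RL.LSpace (0 : Divisor K F) := by
    right
    intro v
    rw [Fermat.Agent.S24.ord_div v hf'.1 hf.1, hf.2, hf'.2, sub_self, Finsupp.zero_apply, add_zero]
  obtain ⟨c, hc⟩ := Fermat.Agent.RL.onlyConst_zero h _ h1
  refine ⟨c, ?_, ?_⟩
  · rintro rfl
    rw [map_zero] at hc
    exact div_ne_zero hf'.1 hf.1 hc.symm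
  · rw [hc, div_mul_cancel₀ _ hf.1]

include h in
theorem isDiv_degree_eq_zero {f : F} {D : Divisor K F} (hf : IsDiv f D) :
    Divisor.degree D = 0 :=
  Fermat.Agent.S24.degree_eq_zero_of_principal h hf.1 D fun v => (hf.2 v).symm

/-- the value `f(D)` (`deg D = 0`) only depends on `div f`. -/
theorem evD_congr_div {f f' : F} {G D : Divisor K F} (hf : IsDiv f G) (hf' : IsDiv f' G)
    (hD : Divisor.degree D = 0) (hd : ∀ v, D v = 0 ∨ G v = 0) : evD h D f' = evD h D f := by
  obtain ⟨c, hc, rfl⟩ := isDiv_exists_const h hf hf'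
  rw [evD_mul h (unitOn_const D hc) (isDiv_unitOn hf hd), evD_const h hD c hc, one_mul]

/-- **Lemma A** : if `D = div h₀` is principal and disjoint from `E`, `div f = m D`,
`div φ = m E`, then `f(E) = φ(D)`. -/
theorem weil_principal (hWR : WRStatement) {m : ℤ} {D E : Divisor K F} {f φ h₀ : F}
    (hE : Divisor.degree E = 0) (hh : IsDiv h₀ D) (hf : IsDiv f (m • D)) (hφ : IsDiv φ (m • E))
    (hd : ∀ v, D v = 0 ∨ E v = 0) : evD h E f = evD h D φ := by
  have hd' : ∀ v, E v = 0 ∨ D v = 0 := fun v => (hd v).symm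
  have hu : UnitOn E h₀ := isDiv_unitOn hh hd'
  have h1 : evD h E f = evD h E (h₀ ^ m) :=
    evD_congr_div h (isDiv_zpow hh m) hf hE fun v => by
      rcases hd' v with h0 | h0
      · exact Or.inl h0
      · right; rw [Finsupp.smul_apply, h0, smul_zero]
  rw [h1, evD_zpow h hu, ← evD_zsmul h hu]
  refine hWR K F h h₀ φ D (m • E) hh hφ fun v => ?_
  rcases hd v with h0 | h0
  · exact Or.inl h0
  · right; rw [Finsupp.smul_apply, h0, smul_zero]

/-- independence of the representative. -/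
theorem weil_indep (hWR : WRStatement) {m : ℤ} {D D' E : Divisor K F} {f f' φ φ' h₀ : F}
    (hE : Divisor.degree E = 0) (hD' : Divisor.degree D' = 0)
    (hh : IsDiv h₀ (D' - D))
    (hf : IsDiv f (m • D)) (hf' : IsDiv f' (m • D')) (hφ : IsDiv φ (m • E)) (hφ' : IsDiv φ' (m • E))
    (hd : ∀ v, D v = 0 ∨ E v = 0) (hd' : ∀ v, D' v = 0 ∨ E v = 0) :
    evD h E f * evD h D' φ' = evD h E f' * evD h D φ := by
  have hmE : ∀ (G : Divisor K F), (∀ v, G v = 0 ∨ E v = 0) → ∀ v, G v = 0 ∨ (m • E) v = 0 := by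
    intro G hG v
    rcases hG v with h0 | h0
    · exact Or.inl h0
    · right; rw [Finsupp.smul_apply, h0, smul_zero]
  have hEm : ∀ (G : Divisor K F), (∀ v, G v = 0 ∨ E v = 0) → ∀ v, E v = 0 ∨ (m • G) v = 0 := by
    intro G hG v
    rcases hG v with h0 | h0
    · right; rw [Finsupp.smul_apply, h0, smul_zero]
    · exact Or.inl h0
  have e1 : evD h D' φ' = evD h D' φ := evD_congr_div h hφ hφ' hD' (hmE _ hd')
  have hdd : ∀ v, (D' - D) v = 0 ∨ E v = 0 := by
    intro v
    rcases hd v with h0 | h0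
    · rcases hd' v with h1 | h1
      · left; rw [Finsupp.sub_apply, h0, h1, sub_zero]
      · exact Or.inr h1
    · exact Or.inr h0
  have hq : IsDiv (f' * f⁻¹) (m • (D' - D)) := by
    have := isDiv_mul hf' (isDiv_inv hf)
    rwa [← sub_eq_add_neg, ← smul_sub] at this
  have e2 := weil_principal h hWR hE hh hq hφ hdd
  have uf : UnitOn E f := isDiv_unitOn hf (hEm _ hd)
  have uf' : UnitOn E f' := isDiv_unitOn hf' (hEm _ hd')
  have uD : UnitOn D φ := isDiv_unitOn hφ (hmE _ hd)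
  have uD' : UnitOn D' φ := isDiv_unitOn hφ (hmE _ hd')
  rw [evD_mul h uf' uf.inv, evD_inv h uf, sub_eq_add_neg, evD_add h uD' uD.neg,
    evD_neg h uD] at e2
  have n1 := evD_ne_zero h uf
  have n2 := evD_ne_zero h uD
  rw [e1]
  field_simp at e2
  linear_combination -e2

end Fermat.Agent.S19.Pair
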