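import Fermat.Agent.S19.Defs

set_option autoImplicit false

/-!
# S19 / PAIR : algebra of `evD`  (general function fields)
-/

noncomputable section

namespace Fermat.Agent.S19.Pair

open AlgebraicCurve
open Fermat.Agent.S24 (IsFF1)
open Fermat.Agent.DIV (valAt)
open Fermat.Agent.S19 (evD IsDiv WRStatement)

variable {K F : Type} [Field K] [Field F] [Algebra K F] [IsAlgClosed K] (h : IsFF1 K F)

/-- `f` is a unit at every place of the support of `D`. -/
def UnitOn (D : Divisor K F) (f : F) : Prop := f ≠ 0 ∧ ∀ v, D v ≠ 0 → v.ord f = 0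

omit [IsAlgClosed K] in
theorem UnitOn.mul {D : Divisor K F} {f g : F} (hf : UnitOn D f) (hg : UnitOn D g) :
    UnitOn D (f * g) :=
  ⟨mul_ne_zero hf.1 hg.1, fun v hv => by rw [v.ord_mul hf.1 hg.1, hf.2 v hv, hg.2 v hv, add_zero]⟩

omit [IsAlgClosed K] in
theorem UnitOn.inv {D : Divisor K F} {f : F} (hf : UnitOn D f) : UnitOn D f⁻¹ :=
  ⟨inv_ne_zero hf.1, fun v hv => by rw [v.ord_inv, hf.2 v hv, neg_zero]⟩

omit [IsAlgClosed K] in
theorem UnitOn.zpow {D : Divisor K F} {f : F} (hf : UnitOn D f) (n : ℤ) : UnitOn D (f ^ n) :=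
  ⟨zpow_ne_zero n hf.1, fun v hv => by rw [v.ord_zpow, hf.2 v hv, mul_zero]⟩

omit [IsAlgClosed K] in
theorem unitOn_const (D : Divisor K F) {c : K} (hc : c ≠ 0) : UnitOn D (algebraMap K F c) :=
  ⟨(map_ne_zero _).2 hc, fun v _ => Fermat.Agent.S24.ord_algebraMap v c⟩

omit [IsAlgClosed K] in
theorem UnitOn.mem {D : Divisor K F} {f : F} (hf : UnitOn D f) {v : Place K F} (hv : D v ≠ 0) :
    f ∈ v.toValuationSubring :=
  Fermat.Agent.S24.mem_of_ord_nonneg v (hf.2 v hv).ge

theorem UnitOn.valAt_ne_zero {D : Divisor K F} {f : F} (hf : UnitOn D f) {v : Place K F}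
    (hv : D v ≠ 0) : valAt h v f ≠ 0 := by
  intro h0
  have := (Fermat.Agent.DIV.valAt_eq_zero_iff h v (hf.mem hv) hf.1).1 h0
  rw [hf.2 v hv] at this
  exact lt_irrefl _ this

omit [IsAlgClosed K] in
theorem UnitOn.add {D D' : Divisor K F} {f : F} (hf : UnitOn D f) (hf' : UnitOn D' f) :
    UnitOn (D + D') f :=
  ⟨hf.1, fun v hv => by
    by_cases h1 : D v = 0
    · by_cases h2 : D' v = 0
      · exact absurd (by rw [Finsupp.add_apply, h1, h2, add_zero]) hv
      · exact hf'.2 v h2
    · exact hf.2 v h1⟩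

omit [IsAlgClosed K] in
theorem UnitOn.neg {D : Divisor K F} {f : F} (hf : UnitOn D f) : UnitOn (-D) f :=
  ⟨hf.1, fun v hv => hf.2 v fun h0 => hv (by rw [Finsupp.neg_apply, h0, neg_zero])⟩

omit [IsAlgClosed K] in
theorem UnitOn.zsmul {D : Divisor K F} {f : F} (hf : UnitOn D f) (m : ℤ) : UnitOn (m • D) f :=
  ⟨hf.1, fun v hv => hf.2 v fun h0 => hv (by rw [Finsupp.smul_apply, h0, smul_zero])⟩

theorem evD_ne_zero {D : Divisor K F} {f : F} (hf : UnitOn D f) : evD h D f ≠ 0 := by
  unfold evD Finsupp.prod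
  rw [Finset.prod_ne_zero_iff]
  intro v hv
  exact zpow_ne_zero _ (hf.valAt_ne_zero h (Finsupp.mem_support_iff.1 hv))

theorem evD_mul {D : Divisor K F} {f g : F} (hf : UnitOn D f) (hg : UnitOn D g) :
    evD h D (f * g) = evD h D f * evD h D g := by
  unfold evD Finsupp.prod
  rw [← Finset.prod_mul_distrib]
  refine Finset.prod_congr rfl fun v hv => ?_
  have hv' := Finsupp.mem_support_iff.1 hv
  show valAt h v (f * g) ^ D v = valAt h v f ^ D v * valAt h v g ^ D v
  rw [Fermat.Agent.DIV.valAt_mul h v (hf.mem hv') (hg.mem hv'), mul_zpow]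

theorem evD_one (D : Divisor K F) : evD h D 1 = 1 := by
  unfold evD Finsupp.prod
  refine Finset.prod_eq_one fun v _ => ?_
  show valAt h v 1 ^ D v = 1
  rw [Fermat.Agent.DIV.valAt_one, one_zpow]

theorem evD_inv {D : Divisor K F} {f : F} (hf : UnitOn D f) :
    evD h D f⁻¹ = (evD h D f)⁻¹ := by
  have h1 := evD_mul h hf hf.inv
  rw [mul_inv_cancel₀ hf.1, evD_one] at h1
  exact eq_inv_of_mul_eq_one_right h1.symm

theorem evD_zero (f : F) : evD h (0 : Divisor K F) f = 1 := by
  unfold evD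
  exact Finsupp.prod_zero_index

theorem evD_add {D D' : Divisor K F} {f : F} (hf : UnitOn D f) (hf' : UnitOn D' f) :
    evD h (D + D') f = evD h D f * evD h D' f := by
  classical
  unfold evD
  refine Finsupp.prod_add_index (fun v _ => zpow_zero _) fun v hv a b => ?_
  refine zpow_add₀ ?_ a b
  rcases Finset.mem_union.1 hv with hv | hv
  · exact hf.valAt_ne_zero h (Finsupp.mem_support_iff.1 hv)
  · exact hf'.valAt_ne_zero h (Finsupp.mem_support_iff.1 hv)

theorem evD_neg {D : Divisor K F} {f : F} (hf : UnitOn D f) :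
    evD h (-D) f = (evD h D f)⁻¹ := by
  have h1 := evD_add h hf hf.neg
  rw [add_neg_cancel, evD_zero] at h1
  exact eq_inv_of_mul_eq_one_right h1.symm

theorem evD_nsmul {D : Divisor K F} {f : F} (hf : UnitOn D f) (n : ℕ) :
    evD h (n • D) f = evD h D f ^ n := by
  induction n with
  | zero => rw [zero_smul, evD_zero, pow_zero]
  | succ n ih =>
    have h1 : UnitOn (n • D) f := by
      have := hf.zsmul (n : ℤ)
      rwa [natCast_zsmul] at this
    rw [succ_nsmul, evD_add h h1 hf, ih, pow_succ]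

theorem evD_zsmul {D : Divisor K F} {f : F} (hf : UnitOn D f) (m : ℤ) :
    evD h (m • D) f = evD h D f ^ m := by
  obtain ⟨n, rfl | rfl⟩ := m.eq_nat_or_neg
  · rw [natCast_zsmul, evD_nsmul h hf, zpow_natCast]
  · have h1 : UnitOn (n • D) f := by
      have := hf.zsmul (n : ℤ)
      rwa [natCast_zsmul] at this
    rw [neg_smul, natCast_zsmul, evD_neg h h1, evD_nsmul h hf, zpow_neg, zpow_natCast]

theorem evD_pow {D : Divisor K F} {f : F} (hf : UnitOn D f) (n : ℕ) :
    evD h D (f ^ n) = evD h D f ^ n := by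
  induction n with
  | zero => rw [pow_zero, evD_one, pow_zero]
  | succ n ih =>
    have h1 : UnitOn D (f ^ n) := by
      have := hf.zpow (n : ℤ)
      rwa [zpow_natCast] at this
    rw [pow_succ, evD_mul h h1 hf, ih, pow_succ]

theorem evD_zpow {D : Divisor K F} {f : F} (hf : UnitOn D f) (m : ℤ) :
    evD h D (f ^ m) = evD h D f ^ m := by
  obtain ⟨n, rfl | rfl⟩ := m.eq_nat_or_neg
  · rw [zpow_natCast, evD_pow h hf, zpow_natCast]
  · have h1 : UnitOn D (f ^ n) := by
      have := hf.zpow (n : ℤ)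
      rwa [zpow_natCast] at this
    rw [zpow_neg, zpow_natCast, evD_inv h h1, evD_pow h hf, zpow_neg, zpow_natCast]

theorem evD_const {D : Divisor K F} (hD : Divisor.degree D = 0) (c : K) (hc : c ≠ 0) :
    evD h D (algebraMap K F c) = 1 := by
  unfold evD Finsupp.prod
  simp only [Fermat.Agent.DIV.valAt_algebraMap]
  have h1 : ∀ s : Finset (Place K F), ∏ x ∈ s, c ^ D x = c ^ ∑ x ∈ s, D x := by
    classical
    intro s
    induction s using Finset.induction_on with
    | empty => simp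
    | insert a s ha ih => rw [Finset.prod_insert ha, Finset.sum_insert ha, ih, zpow_add₀ hc]
  rw [h1, ← Fermat.Agent.S24.principal_degree_eq_sum h, hD, zpow_zero]

theorem evD_smul (g : SemilinearAut K F) (D : Divisor K F) (f : F) :
    evD h (g • D) (g • f) = SemilinearAut.baseAut g (evD h D f) := by
  unfold evD
  rw [SemilinearAut.divisor_smul_def, Finsupp.prod_mapDomain_index_inj (MulAction.injective g)]
  unfold Finsupp.prod
  rw [map_prod]
  refine Finset.prod_congr rfl fun v _ => ?_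
  show valAt h (g • v) (g • f) ^ D v = SemilinearAut.baseAut g (valAt h v f ^ D v)
  rw [Fermat.Agent.DIV.valAt_smul, map_zpow₀]

end Fermat.Agent.S19.Pair
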